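import Mathlib.FieldTheory.RatFunc.AsPolynomial
import Mathlib.RingTheory.Valuation.ValuationSubring

/-!
# The valuation subring of `RatFunc k` at a point `τ : k` (S52, package E4-generic)

`regularAt τ` is the ring of rational functions whose denominator does not vanish at `τ`;
`evalAt τ : regularAt τ →+* k` is evaluation at `τ`.  It kills exactly the nonunits, and it
commutes with every ring endomorphism of `RatFunc k` that acts coefficientwise through a ring
endomorphism `σ` of `k` fixing `τ`.
-/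

set_option autoImplicit false

namespace Fermat.Agent.S52.H16

open Polynomial

variable {k : Type*} [Field k] (τ : k)

theorem eval_ne_zero_of_dvd {p q : k[X]} (h : p ∣ q) (hq : q.eval τ ≠ 0) : p.eval τ ≠ 0 :=
  fun hp => hq (eval_eq_zero_of_dvd_of_eval_eq_zero h hp)

/-- The valuation subring of rational functions regular at `τ`. -/
def regularAt : ValuationSubring (RatFunc k) where
  carrier := {r | r.denom.eval τ ≠ 0}
  mul_mem' {x y} hx hy := by
    refine eval_ne_zero_of_dvd τ (RatFunc.denom_mul_dvd x y) ?_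
    rw [eval_mul]
    exact mul_ne_zero hx hy
  one_mem' := by simp
  add_mem' {x y} hx hy := by
    refine eval_ne_zero_of_dvd τ (RatFunc.denom_add_dvd x y) ?_
    rw [eval_mul]
    exact mul_ne_zero hx hy
  zero_mem' := by simp
  neg_mem' {x} hx := by
    have h : -x = RatFunc.C (-1) * x := by simp
    show (-x).denom.eval τ ≠ 0
    rw [h]
    refine eval_ne_zero_of_dvd τ (RatFunc.denom_mul_dvd _ x) ?_
    rw [eval_mul, RatFunc.denom_C, eval_one, one_mul]
    exact hx
  mem_or_inv_mem' x := by
    by_cases hx : x.denom.eval τ ≠ 0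
    · exact Or.inl hx
    · right
      rw [not_not] at hx
      have hx0 : x ≠ 0 := by
        rintro rfl
        simp at hx
      refine eval_ne_zero_of_dvd τ (RatFunc.denom_inv_dvd hx0) ?_
      intro hnum
      obtain ⟨u, v, huv⟩ := x.isCoprime_num_denom
      have := congrArg (eval τ) huv
      simp [hnum, hx] at this

theorem mem_regularAt_iff {r : RatFunc k} : r ∈ regularAt τ ↔ r.denom.eval τ ≠ 0 := Iff.rfl

theorem algebraMap_mem_regularAt (p : k[X]) : algebraMap k[X] (RatFunc k) p ∈ regularAt τ := by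
  rw [mem_regularAt_iff, RatFunc.denom_algebraMap, eval_one]
  exact one_ne_zero

/-- Evaluation at `τ`. -/
noncomputable def evalAt : regularAt τ →+* k where
  toFun r := RatFunc.eval (RingHom.id k) τ r.1
  map_one' := RatFunc.eval_one _ _
  map_mul' x y := RatFunc.eval_mul _ _ x.2 y.2
  map_zero' := RatFunc.eval_zero _ _
  map_add' x y := RatFunc.eval_add _ _ x.2 y.2

theorem evalAt_apply (r : regularAt τ) : evalAt τ r = RatFunc.eval (RingHom.id k) τ r.1 := rfl

theorem evalAt_algebraMap (p : k[X]) :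
    evalAt τ ⟨algebraMap k[X] (RatFunc k) p, algebraMap_mem_regularAt τ p⟩ = p.eval τ := by
  rw [evalAt_apply, RatFunc.eval_algebraMap]
  rfl

/-- If `r * q = p` with `q(τ) ≠ 0`, then `r(τ) = p(τ) / q(τ)`. -/
theorem evalAt_eq_div (r : regularAt τ) {p q : k[X]}
    (h : (r : RatFunc k) * algebraMap k[X] (RatFunc k) q = algebraMap k[X] (RatFunc k) p)
    (hq : q.eval τ ≠ 0) : evalAt τ r = p.eval τ / q.eval τ := by
  have h' : r * ⟨algebraMap k[X] (RatFunc k) q, algebraMap_mem_regularAt τ q⟩ =
      ⟨algebraMap k[X] (RatFunc k) p, algebraMap_mem_regularAt τ p⟩ := Subtype.ext h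
  have := congrArg (evalAt τ) h'
  rw [map_mul, evalAt_algebraMap, evalAt_algebraMap] at this
  rw [eq_div_iff hq, this]

/-- `evalAt τ` kills the maximal ideal. -/
theorem evalAt_eq_zero_of_mem_nonunits (a : regularAt τ)
    (ha : (a : RatFunc k) ∈ (regularAt τ).nonunits) : evalAt τ a = 0 := by
  rw [evalAt_apply, RatFunc.eval]
  by_contra hne
  have hnum : (a : RatFunc k).num.eval τ ≠ 0 := by
    intro h0
    apply hne
    show eval τ _ / eval τ _ = 0
    rw [h0, zero_div]
  have ha0 : (a : RatFunc k) ≠ 0 := by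
    intro h0
    rw [h0] at hnum
    simp at hnum
  have hinv : (a : RatFunc k)⁻¹ ∈ regularAt τ :=
    eval_ne_zero_of_dvd τ (RatFunc.denom_inv_dvd ha0) hnum
  rcases (regularAt τ).mem_nonunits_iff_or.mp ha with h | h
  · exact ha0 h
  · exact h hinv

/-- The kernel of `evalAt τ` is exactly the maximal ideal (the `hker` hypothesis of
`Fermat.Agent.S52.H61.exists_red_hom`). -/
theorem evalAt_eq_zero_iff (a : regularAt τ) :
    evalAt τ a = 0 ↔ (a : RatFunc k) ∈ (regularAt τ).nonunits := by
  refine ⟨fun h0 => ?_, evalAt_eq_zero_of_mem_nonunits τ a⟩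
  by_contra hmem
  rw [(regularAt τ).mem_nonunits_iff_or, not_or, not_not] at hmem
  obtain ⟨ha0, hinv⟩ := hmem
  have h1 : a * ⟨(a : RatFunc k)⁻¹, hinv⟩ = 1 := Subtype.ext (mul_inv_cancel₀ ha0)
  have := congrArg (evalAt τ) h1
  rw [map_mul, h0, zero_mul, map_one] at this
  exact zero_ne_one this

theorem C_mem_regularAt (c : k) : RatFunc.C c ∈ regularAt τ := by
  rw [mem_regularAt_iff, RatFunc.denom_C, eval_one]
  exact one_ne_zero

theorem X_mem_regularAt : (RatFunc.X : RatFunc k) ∈ regularAt τ := by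
  rw [mem_regularAt_iff, RatFunc.denom_X, eval_one]
  exact one_ne_zero

@[simp] theorem evalAt_C (c : k) : evalAt τ ⟨RatFunc.C c, C_mem_regularAt τ c⟩ = c := by
  rw [evalAt_apply, RatFunc.eval_C]
  rfl

@[simp] theorem evalAt_X : evalAt τ ⟨RatFunc.X, X_mem_regularAt τ⟩ = τ := by
  rw [evalAt_apply, RatFunc.eval_X]

/-- A natural number that is nonzero in `k` is a unit of `regularAt τ`. -/
theorem natCast_not_mem_nonunits_regularAt {n : ℕ} (hn : (n : k) ≠ 0) :
    (n : RatFunc k) ∉ (regularAt τ).nonunits := by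
  intro hmem
  apply hn
  have := evalAt_eq_zero_of_mem_nonunits τ (n : regularAt τ) (by push_cast; exact hmem)
  simpa using this

/-- A natural number that is nonzero in `k` has valuation `1`. -/
theorem valuation_natCast {n : ℕ} (hn : (n : k) ≠ 0) :
    (regularAt τ).valuation (n : RatFunc k) = 1 := by
  have h1 := natCast_not_mem_nonunits_regularAt τ hn
  rw [(regularAt τ).mem_nonunits_iff, not_lt] at h1
  have h2 : (n : RatFunc k) ∈ regularAt τ := (n : regularAt τ).2
  exact le_antisymm (((regularAt τ).valuation_le_one_iff _).mpr h2) h1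

section Frobenius

variable (σ : k →+* k) (Sg : RatFunc k →+* RatFunc k)
  (hSg : ∀ p : k[X], Sg (algebraMap k[X] (RatFunc k) p) = algebraMap k[X] (RatFunc k) (p.map σ))

include hSg in
/-- A coefficientwise endomorphism preserves regularity at a fixed point and commutes with
evaluation there. -/
theorem map_mem_regularAt_and_evalAt (hτ : σ τ = τ) (r : regularAt τ) :
    ∃ h : Sg (r : RatFunc k) ∈ regularAt τ, evalAt τ ⟨Sg r, h⟩ = σ (evalAt τ r) := by
  have hd : (r : RatFunc k).denom.eval τ ≠ 0 := r.2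
  have hdσ : ((r : RatFunc k).denom.map σ).eval τ ≠ 0 := by
    rw [eval_map]
    nth_rewrite 1 [← hτ]
    rw [eval₂_hom]
    exact (map_ne_zero σ).mpr hd
  have hdK : algebraMap k[X] (RatFunc k) (r : RatFunc k).denom ≠ 0 := by
    rw [Ne, map_eq_zero_iff _ (IsFractionRing.injective k[X] (RatFunc k))]
    exact RatFunc.denom_ne_zero _
  have hdσK : algebraMap k[X] (RatFunc k) ((r : RatFunc k).denom.map σ) ≠ 0 := by
    rw [← hSg]
    exact (map_ne_zero Sg).mpr hdK
  have hr : (r : RatFunc k) * algebraMap k[X] (RatFunc k) (r : RatFunc k).denom =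
      algebraMap k[X] (RatFunc k) (r : RatFunc k).num := by
    nth_rewrite 1 [← RatFunc.num_div_denom (r : RatFunc k)]
    exact div_mul_cancel₀ _ hdK
  have hSgr : Sg (r : RatFunc k) * algebraMap k[X] (RatFunc k) ((r : RatFunc k).denom.map σ) =
      algebraMap k[X] (RatFunc k) ((r : RatFunc k).num.map σ) := by
    rw [← hSg, ← hSg, ← map_mul, hr]
  have hmem : Sg (r : RatFunc k) ∈ regularAt τ := by
    have hSgr' : Sg (r : RatFunc k) = algebraMap k[X] (RatFunc k) ((r : RatFunc k).num.map σ) /
        algebraMap k[X] (RatFunc k) ((r : RatFunc k).denom.map σ) := by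
      rw [eq_div_iff hdσK, hSgr]
    rw [mem_regularAt_iff, hSgr']
    exact eval_ne_zero_of_dvd τ (RatFunc.denom_div_dvd _ _) hdσ
  refine ⟨hmem, ?_⟩
  rw [evalAt_eq_div τ ⟨Sg r, hmem⟩ hSgr hdσ, evalAt_eq_div τ r hr hd, map_div₀]
  congr 1
  · rw [eval_map]; nth_rewrite 1 [← hτ]; rw [eval₂_hom]
  · rw [eval_map]; nth_rewrite 1 [← hτ]; rw [eval₂_hom]

end Frobenius

end Fermat.Agent.S52.H16
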