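import Fermat.Agent.S52.H16.Specialize
import Fermat.Agent.S52.H16.RegularAt

/-!
# Specialisation of torsion points of a curve over `k[t]` at `t = τ` (S52, package E4-generic)

`W` is a Weierstrass curve with coefficients in `k[X]`.  Its generic fibre `genFib W` lives over
`RatFunc k`, its fibre `fib W τ` over `k`.  If the fibre at `τ` has nonzero discriminant and `p` is
an odd prime invertible in `k`, then `specPt W τ hΔ : (genFib W).Point → (fib W τ).Point` is
additive and injective on `p`-torsion points, and sends a point with polynomial coordinates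
`(x(t), y(t))` to `(x(τ), y(τ))`.
-/

set_option autoImplicit false

namespace Fermat.Agent.S52.H16

open Polynomial WeierstrassCurve WeierstrassCurve.Affine

section Cast

variable {F : Type*} [Field F]

/-- Transport of points along an equality of curves. -/
def castPt {W W' : Affine F} (h : W = W') : W.Point → W'.Point := fun P => h ▸ P

theorem castPt_zero {W W' : Affine F} (h : W = W') : castPt h 0 = 0 := by subst h; rfl

theorem castPt_some {W W' : Affine F} (h : W = W') {x y : F} (hxy : W.Nonsingular x y) :
    castPt h (.some x y hxy) = .some x y (h ▸ hxy) := by subst h; rfl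

theorem castPt_add [DecidableEq F] {W W' : Affine F} (h : W = W') (P Q : W.Point) :
    castPt h (P + Q) = castPt h P + castPt h Q := by subst h; rfl

theorem castPt_injective {W W' : Affine F} (h : W = W') : Function.Injective (castPt h) := by
  subst h; exact fun _ _ h => h

end Cast

variable {k : Type*} [Field k] (W : WeierstrassCurve k[X])

/-- The generic fibre. -/
noncomputable abbrev genFib : Affine (RatFunc k) := (W.map (algebraMap k[X] (RatFunc k))).toAffine

/-- The fibre at `τ`. -/
noncomputable abbrev fib (τ : k) : Affine k := (W.map (evalRingHom τ)).toAffine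

/-- Polynomials as functions regular at `τ`. -/
noncomputable def polyToRegular (τ : k) : k[X] →+* regularAt τ :=
  (algebraMap k[X] (RatFunc k)).codRestrict (regularAt τ).toSubring (algebraMap_mem_regularAt τ)

theorem genFib_eq (τ : k) :
    genFib W = ((W.map (polyToRegular τ)).map (regularAt τ).subtype).toAffine := rfl

theorem fib_eq (τ : k) : fib W τ = ((W.map (polyToRegular τ)).map (evalAt τ)).toAffine := by
  have h : ∀ p : k[X], evalAt τ (polyToRegular τ p) = p.eval τ := evalAt_algebraMap τ
  ext <;> simp [h]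

omit W in
/-- Evaluation of a coefficientwise image at a fixed point. -/
theorem eval_map_of_fixed (σ : k →+* k) {τ : k} (hτ : σ τ = τ) (x : k[X]) :
    (x.map σ).eval τ = σ (x.eval τ) := by
  rw [eval_map]; nth_rewrite 1 [← hτ]; rw [eval₂_hom]

variable (τ : k) (hΔ : (W.map (evalRingHom τ)).Δ ≠ 0)

include hΔ in
theorem fib_Δ_ne : ((W.map (polyToRegular τ)).map (evalAt τ)).Δ ≠ 0 := by
  rw [← show W.map (evalRingHom τ) = (W.map (polyToRegular τ)).map (evalAt τ) from fib_eq W τ]
  exact hΔ

include hΔ in
/-- A polynomial point of the generic fibre specialises to a nonsingular point of the fibre. -/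
theorem nonsingular_fib {x y : k[X]}
    (h : (genFib W).Nonsingular (algebraMap k[X] (RatFunc k) x) (algebraMap k[X] (RatFunc k) y)) :
    (fib W τ).Nonsingular (x.eval τ) (y.eval τ) :=
  (equation_iff_nonsingular_of_Δ_ne_zero hΔ).mp
    (((Affine.map_equation W.toAffine (IsFractionRing.injective k[X] (RatFunc k)) x y).mp h.1).map
      (evalRingHom τ))

variable [DecidableEq k] [DecidableEq (RatFunc k)]

/-- Specialisation at `t = τ` (junk value `0` at points whose coordinates have a pole at `τ`). -/
noncomputable def specPt : (genFib W).Point → (fib W τ).Point :=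
  fun P => castPt (fib_eq W τ).symm
    (sp (regularAt τ) (evalAt τ) (W.map (polyToRegular τ)) (fib_Δ_ne W τ hΔ) P)

omit [DecidableEq k] [DecidableEq (RatFunc k)] in
@[simp] theorem specPt_zero : specPt W τ hΔ 0 = 0 :=
  castPt_zero _

omit [DecidableEq k] [DecidableEq (RatFunc k)] in
/-- A point with polynomial coordinates `(x(t), y(t))` specialises to `(x(τ), y(τ))`. -/
theorem specPt_poly {x y : k[X]}
    (h : (genFib W).Nonsingular (algebraMap k[X] (RatFunc k) x) (algebraMap k[X] (RatFunc k) y))
    (h' : (fib W τ).Nonsingular (x.eval τ) (y.eval τ)) :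
    specPt W τ hΔ (.some _ _ h) = .some (x.eval τ) (y.eval τ) h' := by
  have := sp_some (regularAt τ) (evalAt τ) (W.map (polyToRegular τ)) (fib_Δ_ne W τ hΔ)
    (polyToRegular τ x) (polyToRegular τ y) h
  exact (congrArg (castPt (fib_eq W τ).symm) this).trans
    ((castPt_some _ _).trans (some_eq_some (evalAt_algebraMap τ x) (evalAt_algebraMap τ y)))

variable {p : ℕ} (hp : p.Prime) (hp2 : p ≠ 2) (hpk : (p : k) ≠ 0)

include hp hp2 hpk in
/-- **Additivity** of specialisation on `p`-torsion. -/
theorem specPt_add {P Q : (genFib W).Point} (hP : p • P = 0) (hQ : p • Q = 0) :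
    specPt W τ hΔ (P + Q) = specPt W τ hΔ P + specPt W τ hΔ Q := by
  have := sp_add (regularAt τ) (evalAt τ) (W.map (polyToRegular τ)) (fib_Δ_ne W τ hΔ)
    (evalAt_eq_zero_of_mem_nonunits τ) hp hp2 hpk hP hQ
  exact (congrArg (castPt (fib_eq W τ).symm) this).trans (castPt_add _ _ _)

include hp hp2 hpk in
omit [DecidableEq k] in
/-- **Injectivity** of specialisation on `p`-torsion. -/
theorem specPt_inj {P Q : (genFib W).Point} (hP : p • P = 0) (hQ : p • Q = 0)
    (h : specPt W τ hΔ P = specPt W τ hΔ Q) : P = Q :=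
  sp_inj (regularAt τ) (evalAt τ) (W.map (polyToRegular τ)) (fib_Δ_ne W τ hΔ)
    (evalAt_eq_zero_of_mem_nonunits τ) hp hp2 hpk hP hQ (castPt_injective _ h)

include hp hp2 hpk in
/-- Specialisation commutes with multiples on `p`-torsion. -/
theorem specPt_nsmul {P : (genFib W).Point} (hP : p • P = 0) (n : ℕ) :
    specPt W τ hΔ (n • P) = n • specPt W τ hΔ P := by
  induction n with
  | zero => rw [zero_nsmul, zero_nsmul]; exact specPt_zero W τ hΔ
  | succ n ih =>
    have hn : p • (n • P) = 0 := by rw [smul_comm, hP]; exact nsmul_zero n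
    rw [succ_nsmul, succ_nsmul, specPt_add W τ hΔ hp hp2 hpk hn hP, ih]

include hp hp2 hpk in
/-- **Transfer of linear relations**: a relation `R = a • P + b • Q` between `p`-torsion points
with polynomial coordinates over `k(t)` specialises to the same relation between the points
`(x(τ), y(τ))` of the fibre. -/
theorem spec_relation {xP yP xQ yQ xR yR : k[X]}
    {hP : (genFib W).Nonsingular (algebraMap k[X] (RatFunc k) xP) (algebraMap k[X] (RatFunc k) yP)}
    {hQ : (genFib W).Nonsingular (algebraMap k[X] (RatFunc k) xQ) (algebraMap k[X] (RatFunc k) yQ)}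
    {hR : (genFib W).Nonsingular (algebraMap k[X] (RatFunc k) xR) (algebraMap k[X] (RatFunc k) yR)}
    (tP : p • Point.some _ _ hP = 0) (tQ : p • Point.some _ _ hQ = 0) (a b : ℕ)
    (hrel : Point.some _ _ hR = a • Point.some _ _ hP + b • Point.some _ _ hQ) :
    Point.some (xR.eval τ) (yR.eval τ) (nonsingular_fib W τ hΔ hR) =
      a • Point.some (xP.eval τ) (yP.eval τ) (nonsingular_fib W τ hΔ hP) +
        b • Point.some (xQ.eval τ) (yQ.eval τ) (nonsingular_fib W τ hΔ hQ) := by
  have h := congrArg (specPt W τ hΔ) hrel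
  have taP : p • (a • Point.some _ _ hP) = 0 := by rw [smul_comm, tP]; exact nsmul_zero a
  have tbQ : p • (b • Point.some _ _ hQ) = 0 := by rw [smul_comm, tQ]; exact nsmul_zero b
  rw [specPt_add W τ hΔ hp hp2 hpk taP tbQ, specPt_nsmul W τ hΔ hp hp2 hpk tP,
    specPt_nsmul W τ hΔ hp hp2 hpk tQ, specPt_poly W τ hΔ hR (nonsingular_fib W τ hΔ hR),
    specPt_poly W τ hΔ hP (nonsingular_fib W τ hΔ hP),
    specPt_poly W τ hΔ hQ (nonsingular_fib W τ hΔ hQ)] at h
  exact h

include hp hp2 hpk in
/-- **Independence is preserved**: if `a • P + b • Q` specialises to `0` then it is `0`. -/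
theorem spec_independent {xP yP xQ yQ : k[X]}
    {hP : (genFib W).Nonsingular (algebraMap k[X] (RatFunc k) xP) (algebraMap k[X] (RatFunc k) yP)}
    {hQ : (genFib W).Nonsingular (algebraMap k[X] (RatFunc k) xQ) (algebraMap k[X] (RatFunc k) yQ)}
    (tP : p • Point.some _ _ hP = 0) (tQ : p • Point.some _ _ hQ = 0) (a b : ℕ)
    (h0 : a • Point.some (xP.eval τ) (yP.eval τ) (nonsingular_fib W τ hΔ hP) +
        b • Point.some (xQ.eval τ) (yQ.eval τ) (nonsingular_fib W τ hΔ hQ) = 0) :
    a • Point.some _ _ hP + b • Point.some _ _ hQ = 0 := by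
  have taP : p • (a • Point.some _ _ hP) = 0 := by rw [smul_comm, tP]; exact nsmul_zero a
  have tbQ : p • (b • Point.some _ _ hQ) = 0 := by rw [smul_comm, tQ]; exact nsmul_zero b
  have tsum : p • (a • Point.some _ _ hP + b • Point.some _ _ hQ) = 0 := by
    rw [nsmul_add, taP, tbQ, add_zero]
  refine specPt_inj W τ hΔ hp hp2 hpk tsum (nsmul_zero p) ?_
  rw [specPt_add W τ hΔ hp hp2 hpk taP tbQ, specPt_nsmul W τ hΔ hp hp2 hpk tP,
    specPt_nsmul W τ hΔ hp hp2 hpk tQ, specPt_poly W τ hΔ hP (nonsingular_fib W τ hΔ hP),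
    specPt_poly W τ hΔ hQ (nonsingular_fib W τ hΔ hQ), specPt_zero]
  exact h0

end Fermat.Agent.S52.H16
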