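import Mathlib.AlgebraicGeometry.EllipticCurve.Affine.Point
import Mathlib.RingTheory.Valuation.ValuationSubring
import Fermat.Agent.S05.H60.TorsionIntegral
import Fermat.Agent.S05.H63.Reduction

/-!
# Specialisation of prime-to-residue-characteristic torsion (S52, package E4-generic)

Let `A` be a valuation subring of a field `K`, `φ : A →+* κ` a ring homomorphism to a field that
kills the maximal ideal, and `WA` a Weierstrass curve over `A` whose reduction `WA.map φ` has
nonzero discriminant.  For an odd prime `p` which is nonzero in `κ`, the map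

`sp : (WA.map A.subtype).Point → (WA.map φ).Point`,   `(x, y) ↦ (φ x, φ y)`

is additive and injective on the `p`-torsion points.
-/

set_option autoImplicit false

namespace Fermat.Agent.S52.H16

open WeierstrassCurve WeierstrassCurve.Affine
open Fermat.Agent.S05

universe u v

variable {K : Type u} {κ : Type v} [Field K] [Field κ]

section Integral

variable (A : ValuationSubring K)

/-- Integrality of the `y`-coordinate of a point with integral `x`-coordinate. -/
theorem y_mem_of_equation {W : Affine K} (hW : H60.IntegralCoeffs A W) {x y : K}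
    (h : W.Equation x y) (hx : x ∈ A) : y ∈ A := by
  by_contra hy
  have hy0 : y ≠ 0 := fun h0 => hy (h0 ▸ A.zero_mem)
  have hinv : y⁻¹ ∈ A.nonunits := A.inv_mem_nonunits_iff.mpr (Or.inr hy)
  rw [Affine.equation_iff] at h
  have key : (1 : K) = y⁻¹ * (-(W.a₁ * x + W.a₃) +
      (x ^ 3 + W.a₂ * x ^ 2 + W.a₄ * x + W.a₆) * y⁻¹) := by
    field_simp
    linear_combination h
  have hmem : y⁻¹ * (-(W.a₁ * x + W.a₃) +
      (x ^ 3 + W.a₂ * x ^ 2 + W.a₄ * x + W.a₆) * y⁻¹) ∈ A.nonunits := by
    refine H63.mul_mem_nonunits_of_mem_right A hinv ?_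
    refine add_mem (neg_mem (add_mem (mul_mem hW.a₁ hx) hW.a₃)) (mul_mem ?_ (A.nonunits_subset hinv))
    exact add_mem (add_mem (add_mem (pow_mem hx 3) (mul_mem hW.a₂ (pow_mem hx 2)))
      (mul_mem hW.a₄ hx)) hW.a₆
  exact H60.one_not_nu (key ▸ hmem)

/-- An element of `A` that is not in the maximal ideal is not killed by a ring homomorphism to a
field. -/
theorem map_ne_zero_of_not_mem_nonunits {κ : Type v} [Field κ] (φ : A →+* κ) (a : A)
    (ha : (a : K) ∉ A.nonunits) : φ a ≠ 0 := by
  have ha0 : (a : K) ≠ 0 := fun h0 => ha (h0 ▸ A.nonunits.zero_mem)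
  have hv : A.valuation (a : K) = 1 := by
    rw [A.mem_nonunits_iff, not_lt] at ha
    exact le_antisymm ((A.valuation_le_one_iff _).mpr a.2) ha
  have hinv : (a : K)⁻¹ ∈ A := by
    rw [← A.valuation_le_one_iff, map_inv₀, hv, inv_one]
  have h1 : a * ⟨(a : K)⁻¹, hinv⟩ = 1 := Subtype.ext (mul_inv_cancel₀ ha0)
  intro h0
  have := congrArg φ h1
  rw [map_mul, h0, zero_mul, map_one] at this
  exact zero_ne_one this

end Integral

section Formula

variable {F : Type*} [Field F] (W : Affine F)

/-- The addition formulas with slope `n / d`, with denominators cleared. -/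
theorem add_formula_iff {x₁ x₂ y₁ x₃ y₃ n d : F} (hd : d ≠ 0) :
    (x₃ = W.addX x₁ x₂ (n / d) ∧ y₃ = W.addY x₁ x₂ y₁ (n / d)) ↔
      ((x₃ + x₁ + x₂ + W.a₂) * d ^ 2 = n ^ 2 + W.a₁ * n * d ∧
        (y₃ + W.a₁ * x₃ + W.a₃ + y₁) * d = -n * (x₃ - x₁)) := by
  simp only [addX, addY, negAddY, negY]
  constructor
  · rintro ⟨rfl, rfl⟩
    constructor
    · field_simp
      ring
    · field_simp
      ring
  · rintro ⟨h1, h2⟩
    have hx : x₃ = (n / d) ^ 2 + W.a₁ * (n / d) - W.a₂ - x₁ - x₂ := by
      field_simp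
      linear_combination h1
    refine ⟨hx, ?_⟩
    rw [← hx]
    field_simp
    linear_combination h2

end Formula

section Spec

variable [DecidableEq K] [DecidableEq κ] (A : ValuationSubring K) (φ : A →+* κ)
  (WA : WeierstrassCurve A)

omit [DecidableEq K] [DecidableEq κ] in
/-- The generic fibre has integral coefficients. -/
theorem integralCoeffs_map : H60.IntegralCoeffs A (WA.map A.subtype).toAffine :=
  ⟨WA.a₁.2, WA.a₂.2, WA.a₃.2, WA.a₄.2, WA.a₆.2⟩

omit [DecidableEq K] [DecidableEq κ] in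
/-- Transfer of the addition formulas from the generic to the special fibre. -/
theorem transfer {x₁ x₂ y₁ x₃ y₃ n d : A} (hd : (d : K) ≠ 0) (hφd : φ d ≠ 0)
    (hx : (x₃ : K) = (WA.map A.subtype).toAffine.addX x₁ x₂ ((n : K) / (d : K)))
    (hy : (y₃ : K) = (WA.map A.subtype).toAffine.addY x₁ x₂ y₁ ((n : K) / (d : K))) :
    φ x₃ = (WA.map φ).toAffine.addX (φ x₁) (φ x₂) (φ n / φ d) ∧
      φ y₃ = (WA.map φ).toAffine.addY (φ x₁) (φ x₂) (φ y₁) (φ n / φ d) := by
  obtain ⟨h1, h2⟩ := (add_formula_iff (WA.map A.subtype).toAffine hd).mp ⟨hx, hy⟩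
  have h1A : (x₃ + x₁ + x₂ + WA.a₂) * d ^ 2 = n ^ 2 + WA.a₁ * n * d := Subtype.ext (by
    push_cast
    exact h1)
  have h2A : (y₃ + WA.a₁ * x₃ + WA.a₃ + y₁) * d = -n * (x₃ - x₁) := Subtype.ext (by
    push_cast
    exact h2)
  refine (add_formula_iff (WA.map φ).toAffine hφd).mpr ⟨?_, ?_⟩
  · have := congrArg φ h1A
    simp only [map_add, map_mul, map_pow] at this
    exact this
  · have := congrArg φ h2A
    simp only [map_add, map_mul, map_neg, map_sub] at this
    exact this

omit [DecidableEq K] [DecidableEq κ] in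
theorem nonsingular_sp (hΔ : (WA.map φ).Δ ≠ 0) {x y : K}
    (h : (WA.map A.subtype).toAffine.Nonsingular x y) (hx : x ∈ A) (hy : y ∈ A) :
    (WA.map φ).toAffine.Nonsingular (φ ⟨x, hx⟩) (φ ⟨y, hy⟩) :=
  (equation_iff_nonsingular_of_Δ_ne_zero hΔ).mp
    (((Affine.map_equation WA.toAffine A.subtype_injective ⟨x, hx⟩ ⟨y, hy⟩).mp h.1).map φ)

open Classical in
/-- The specialisation map on points (junk value `0` at points with non-integral coordinates). -/
noncomputable def sp (hΔ : (WA.map φ).Δ ≠ 0) :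
    (WA.map A.subtype).toAffine.Point → (WA.map φ).toAffine.Point
  | .zero => 0
  | .some x y h =>
    if hxy : x ∈ A ∧ y ∈ A then .some _ _ (nonsingular_sp A φ WA hΔ h hxy.1 hxy.2) else 0

variable (hΔ : (WA.map φ).Δ ≠ 0)

omit [DecidableEq K] [DecidableEq κ] in
@[simp] theorem sp_zero : sp A φ WA hΔ 0 = 0 := rfl

omit [DecidableEq K] [DecidableEq κ] in
theorem sp_some' {x y : K} (h : (WA.map A.subtype).toAffine.Nonsingular x y) (hx : x ∈ A)
    (hy : y ∈ A) :
    sp A φ WA hΔ (.some x y h) = .some _ _ (nonsingular_sp A φ WA hΔ h hx hy) := by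
  simp only [sp]
  rw [dif_pos ⟨hx, hy⟩]

omit [DecidableEq K] [DecidableEq κ] in
theorem sp_some (x y : A) (h : (WA.map A.subtype).toAffine.Nonsingular (x : K) (y : K)) :
    sp A φ WA hΔ (.some (x : K) (y : K) h) =
      .some (φ x) (φ y) (nonsingular_sp A φ WA hΔ h x.2 y.2) :=
  sp_some' A φ WA hΔ h x.2 y.2

omit [DecidableEq K] [DecidableEq κ] in
theorem some_eq_some {F : Type*} [Field F] {W : Affine F} {a b a' b' : F}
    {h : W.Nonsingular a b} {h' : W.Nonsingular a' b'} (ha : a = a') (hb : b = b') :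
    Point.some a b h = Point.some a' b' h' := by
  subst ha hb; rfl

variable (hφ : ∀ a : A, (a : K) ∈ A.nonunits → φ a = 0) {p : ℕ} (hp : p.Prime) (hp2 : p ≠ 2)
  (hpκ : (p : κ) ≠ 0)

include hφ hpκ in
omit [DecidableEq K] [DecidableEq κ] in
theorem natCast_not_mem_nonunits : (p : K) ∉ A.nonunits := by
  intro hmem
  apply hpκ
  have := hφ (p : A) (by push_cast; exact hmem)
  simpa using this

include hφ hp hp2 hpκ in
omit [DecidableEq κ] in
/-- A nonzero `p`-torsion point has coordinates in `A`. -/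
theorem exists_coords {P : (WA.map A.subtype).toAffine.Point} (hP0 : P ≠ 0) (hpP : p • P = 0) :
    ∃ (x y : A) (h : (WA.map A.subtype).toAffine.Nonsingular (x : K) (y : K)),
      P = .some (x : K) (y : K) h := by
  have hW := integralCoeffs_map A WA
  have hpA := natCast_not_mem_nonunits A φ hφ hpκ
  have hx := H60.xc_mem_of_prime_nsmul_eq_zero hW hp hp2 hpA hP0 hpP
  cases P with
  | zero => exact absurd rfl hP0
  | some x y h =>
    simp only [H60.xc_some] at hx
    have hy := y_mem_of_equation A hW h.1 hx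
    exact ⟨⟨x, hx⟩, ⟨y, hy⟩, h, rfl⟩

include hφ in
omit [DecidableEq K] [DecidableEq κ] in
theorem hns_of_nonsingular (x y : A) (h' : (WA.map φ).toAffine.Nonsingular (φ x) (φ y)) :
    (WA.map A.subtype).toAffine.a₁ * (y : K) -
        (3 * (x : K) ^ 2 + 2 * (WA.map A.subtype).toAffine.a₂ * x +
          (WA.map A.subtype).toAffine.a₄) ∉ A.nonunits ∨
      2 * (y : K) + (WA.map A.subtype).toAffine.a₁ * x + (WA.map A.subtype).toAffine.a₃ ∉
        A.nonunits := by
  rw [nonsingular_iff'] at h'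
  rcases h'.2 with h1 | h1
  · left
    intro hmem
    apply h1
    have := hφ (WA.a₁ * y - (3 * x ^ 2 + 2 * WA.a₂ * x + WA.a₄)) (by push_cast; exact hmem)
    simp only [map_sub, map_add, map_mul, map_pow, map_ofNat] at this
    exact this
  · right
    intro hmem
    apply h1
    have := hφ (2 * y + WA.a₁ * x + WA.a₃) (by push_cast; exact hmem)
    simp only [map_add, map_mul, map_ofNat] at this
    exact this

include hΔ hφ hp hp2 hpκ in
omit [DecidableEq κ] in
/-- Two `p`-torsion points with integral coordinates and the same reduction are equal. -/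
theorem some_eq_some_of_map_eq {x y x' y' : A}
    {h : (WA.map A.subtype).toAffine.Nonsingular (x : K) (y : K)}
    {h' : (WA.map A.subtype).toAffine.Nonsingular (x' : K) (y' : K)}
    (hP : p • Point.some (x : K) (y : K) h = 0) (hP' : p • Point.some (x' : K) (y' : K) h' = 0)
    (hx : φ x' = φ x) (hy : φ y' = φ y) :
    Point.some (x' : K) (y' : K) h' = Point.some (x : K) (y : K) h := by
  have hW := integralCoeffs_map A WA
  have hpA := natCast_not_mem_nonunits A φ hφ hpκ
  have hxx : (x' : K) - x ∈ A.nonunits := by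
    by_contra hmem
    exact map_ne_zero_of_not_mem_nonunits A φ (x' - x) (by push_cast; exact hmem)
      (by rw [map_sub, hx, sub_self])
  have hyy : (y' : K) - y ∈ A.nonunits := by
    by_contra hmem
    exact map_ne_zero_of_not_mem_nonunits A φ (y' - y) (by push_cast; exact hmem)
      (by rw [map_sub, hy, sub_self])
  have hns := hns_of_nonsingular A φ WA hφ x y (nonsingular_sp A φ WA hΔ h x.2 y.2)
  rcases H63.some_sub_some_eq_zero_or_X_not_mem A (WA.map A.subtype).toAffine hW.a₁ hW.a₂ hW.a₃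
    hW.a₄ h h' x.2 y.2 hxx hyy hns with h0 | ⟨x'', y'', h'', hD, hx''⟩
  · exact sub_eq_zero.mp h0
  · exfalso
    have hpD : p • (Point.some (x' : K) (y' : K) h' - Point.some (x : K) (y : K) h) = 0 := by
      rw [smul_sub, hP, hP', sub_zero]
    have hD0 : Point.some (x' : K) (y' : K) h' - Point.some (x : K) (y : K) h ≠ 0 := by
      rw [hD]; exact Point.some_ne_zero h''
    have := H60.xc_mem_of_prime_nsmul_eq_zero hW hp hp2 hpA hD0 hpD
    rw [hD, H60.xc_some] at this
    exact hx'' this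

include hφ hp hp2 hpκ in
omit [DecidableEq κ] in
/-- **Injectivity** of specialisation on `p`-torsion. -/
theorem sp_inj {P Q : (WA.map A.subtype).toAffine.Point} (hP : p • P = 0) (hQ : p • Q = 0)
    (h : sp A φ WA hΔ P = sp A φ WA hΔ Q) : P = Q := by
  by_cases hP0 : P = 0
  · subst hP0
    by_contra hQ0
    obtain ⟨x, y, hh, rfl⟩ := exists_coords A φ WA hφ hp hp2 hpκ (Ne.symm hQ0) hQ
    rw [sp_zero, sp_some] at h
    exact Point.some_ne_zero _ h.symm
  · by_cases hQ0 : Q = 0
    · subst hQ0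
      obtain ⟨x, y, hh, rfl⟩ := exists_coords A φ WA hφ hp hp2 hpκ hP0 hP
      rw [sp_zero, sp_some] at h
      exact absurd h (Point.some_ne_zero _)
    · obtain ⟨x, y, hh, rfl⟩ := exists_coords A φ WA hφ hp hp2 hpκ hP0 hP
      obtain ⟨x', y', hh', rfl⟩ := exists_coords A φ WA hφ hp hp2 hpκ hQ0 hQ
      rw [sp_some, sp_some] at h
      rw [Point.some.injEq] at h
      exact some_eq_some_of_map_eq A φ WA hΔ hφ hp hp2 hpκ hQ hP h.1 h.2

omit [DecidableEq K] [DecidableEq κ] in
/-- Specialisation commutes with negation (on points with integral coordinates). -/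
theorem sp_neg_some (x y : A) (h : (WA.map A.subtype).toAffine.Nonsingular (x : K) (y : K)) :
    sp A φ WA hΔ (-Point.some (x : K) (y : K) h) = -sp A φ WA hΔ (Point.some (x : K) (y : K) h) := by
  have hmem : (WA.map A.subtype).toAffine.negY (x : K) (y : K) ∈ A :=
    (-y - WA.a₁ * x - WA.a₃ : A).2
  rw [Point.neg_some, sp_some, Point.neg_some, sp_some' A φ WA hΔ _ x.2 hmem]
  refine some_eq_some rfl ?_
  have : (⟨_, hmem⟩ : A) = -y - WA.a₁ * x - WA.a₃ := Subtype.ext rfl
  rw [this, map_sub, map_sub, map_neg, map_mul]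
  rfl

include hφ hp hp2 hpκ in
/-- **Additivity** of specialisation on `p`-torsion. -/
theorem sp_add {P Q : (WA.map A.subtype).toAffine.Point} (hP : p • P = 0) (hQ : p • Q = 0) :
    sp A φ WA hΔ (P + Q) = sp A φ WA hΔ P + sp A φ WA hΔ Q := by
  by_cases hP0 : P = 0
  · subst hP0; rw [zero_add, sp_zero, zero_add]
  by_cases hQ0 : Q = 0
  · subst hQ0; rw [add_zero, sp_zero, add_zero]
  have hPQ : p • (P + Q) = 0 := by rw [smul_add, hP, hQ, add_zero]
  by_cases hsum : P + Q = 0
  · have hQ' : Q = -P := by rw [eq_neg_iff_add_eq_zero, add_comm]; exact hsum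
    obtain ⟨x, y, h, rfl⟩ := exists_coords A φ WA hφ hp hp2 hpκ hP0 hP
    rw [hsum, sp_zero, hQ', sp_neg_some, add_neg_cancel]
  · obtain ⟨x₁, y₁, h₁, rfl⟩ := exists_coords A φ WA hφ hp hp2 hpκ hP0 hP
    obtain ⟨x₂, y₂, h₂, rfl⟩ := exists_coords A φ WA hφ hp hp2 hpκ hQ0 hQ
    obtain ⟨x₃, y₃, h₃, h3⟩ := exists_coords A φ WA hφ hp hp2 hpκ hsum hPQ
    rw [h3, sp_some, sp_some, sp_some]
    by_cases hx : φ x₁ = φ x₂
    · rcases Y_eq_of_X_eq (nonsingular_sp A φ WA hΔ h₁ x₁.2 y₁.2).1
        (nonsingular_sp A φ WA hΔ h₂ x₂.2 y₂.2).1 hx with hy | hy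
      · -- `P = Q`: tangent case
        have hPQeq := some_eq_some_of_map_eq A φ WA hΔ hφ hp hp2 hpκ hQ hP hx hy
        rw [Point.some.injEq] at hPQeq
        obtain ⟨hxK, hyK⟩ := hPQeq
        obtain rfl : x₁ = x₂ := Subtype.ext hxK
        obtain rfl : y₁ = y₂ := Subtype.ext hyK
        have hyne : (y₁ : K) ≠ (WA.map A.subtype).toAffine.negY (x₁ : K) (y₁ : K) := by
          intro hyeq; exact hsum (Point.add_self_of_Y_eq hyeq)
        have hyneκ : φ y₁ ≠ (WA.map φ).toAffine.negY (φ x₁) (φ y₁) := by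
          intro hyeq
          have hnegP : p • (-Point.some (x₁ : K) (y₁ : K) h₁) = 0 := by rw [smul_neg, hP, neg_zero]
          have hsp : sp A φ WA hΔ (Point.some (x₁ : K) (y₁ : K) h₁) =
              sp A φ WA hΔ (-Point.some (x₁ : K) (y₁ : K) h₁) := by
            rw [sp_neg_some, sp_some, Point.neg_some]; exact some_eq_some rfl hyeq
          have hself := sp_inj A φ WA hΔ hφ hp hp2 hpκ hP hnegP hsp
          apply hsum
          nth_rewrite 2 [hself]
          exact add_neg_cancel _
        rw [Point.add_self_of_Y_ne hyne, Point.some.injEq] at h3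
        rw [Point.add_self_of_Y_ne hyneκ]
        rw [slope_of_Y_ne rfl hyne] at h3
        have hd : ((y₁ - (-y₁ - WA.a₁ * x₁ - WA.a₃) : A) : K) ≠ 0 := by
          push_cast
          exact sub_ne_zero.mpr hyne
        have hφd : φ (y₁ - (-y₁ - WA.a₁ * x₁ - WA.a₃)) ≠ 0 := by
          rw [map_sub, map_sub, map_sub, map_neg, map_mul]
          exact sub_ne_zero.mpr hyneκ
        obtain ⟨e1, e2⟩ := transfer A φ WA
          (n := 3 * x₁ ^ 2 + 2 * WA.a₂ * x₁ + WA.a₄ - WA.a₁ * y₁) hd hφd
          (by push_cast; exact h3.1.symm) (by push_cast; exact h3.2.symm)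
        have hn : φ (3 * x₁ ^ 2 + 2 * WA.a₂ * x₁ + WA.a₄ - WA.a₁ * y₁) =
            3 * φ x₁ ^ 2 + 2 * (WA.map φ).toAffine.a₂ * φ x₁ + (WA.map φ).toAffine.a₄ -
              (WA.map φ).toAffine.a₁ * φ y₁ := by
          simp only [map_sub, map_add, map_mul, map_pow, map_ofNat]; rfl
        have hdd : φ (y₁ - (-y₁ - WA.a₁ * x₁ - WA.a₃)) =
            φ y₁ - (WA.map φ).toAffine.negY (φ x₁) (φ y₁) := by
          rw [map_sub, map_sub, map_sub, map_neg, map_mul]; rfl
        rw [hn, hdd, ← slope_of_Y_ne rfl hyneκ] at e1 e2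
        exact some_eq_some e1 e2
      · -- `P = -Q`: impossible
        exfalso
        have hnegQ : p • (-Point.some (x₂ : K) (y₂ : K) h₂) = 0 := by rw [smul_neg, hQ, neg_zero]
        have hsp : sp A φ WA hΔ (Point.some (x₁ : K) (y₁ : K) h₁) =
            sp A φ WA hΔ (-Point.some (x₂ : K) (y₂ : K) h₂) := by
          rw [sp_neg_some, sp_some, sp_some, Point.neg_some]; exact some_eq_some hx hy
        have hself := sp_inj A φ WA hΔ hφ hp hp2 hpκ hP hnegQ hsp
        apply hsum
        rw [hself]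
        exact neg_add_cancel _
    · -- chord case
      have hxK : (x₁ : K) ≠ (x₂ : K) := fun h => hx (congrArg φ (Subtype.ext h))
      rw [Point.add_of_X_ne hxK, Point.some.injEq] at h3
      rw [Point.add_of_X_ne hx]
      rw [slope_of_X_ne hxK] at h3
      have hd : ((x₁ - x₂ : A) : K) ≠ 0 := by
        push_cast
        exact sub_ne_zero.mpr hxK
      have hφd : φ (x₁ - x₂) ≠ 0 := by
        rw [map_sub]
        exact sub_ne_zero.mpr hx
      obtain ⟨e1, e2⟩ := transfer A φ WA (n := y₁ - y₂) hd hφd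
        (by push_cast; exact h3.1.symm) (by push_cast; exact h3.2.symm)
      rw [map_sub, map_sub, ← slope_of_X_ne hx] at e1 e2
      exact some_eq_some e1 e2

include hφ hp hp2 hpκ in
omit [DecidableEq κ] in
/-- Specialisation commutes with negation on `p`-torsion. -/
theorem sp_neg {P : (WA.map A.subtype).toAffine.Point} (hP : p • P = 0) :
    sp A φ WA hΔ (-P) = -sp A φ WA hΔ P := by
  by_cases hP0 : P = 0
  · subst hP0; simp
  · obtain ⟨x, y, h, rfl⟩ := exists_coords A φ WA hφ hp hp2 hpκ hP0 hP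
    exact sp_neg_some A φ WA hΔ x y h

include hφ hp hp2 hpκ in
/-- Specialisation commutes with multiples on `p`-torsion. -/
theorem sp_nsmul {P : (WA.map A.subtype).toAffine.Point} (hP : p • P = 0) (n : ℕ) :
    sp A φ WA hΔ (n • P) = n • sp A φ WA hΔ P := by
  induction n with
  | zero => simp
  | succ n ih =>
    have hn : p • (n • P) = 0 := by rw [smul_comm, hP, smul_zero]
    rw [succ_nsmul, succ_nsmul, sp_add A φ WA hΔ hφ hp hp2 hpκ hn hP, ih]

/-- The specialisation homomorphism on the `p`-torsion subgroup. -/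
noncomputable def spHom :
    (nsmulAddMonoidHom (α := (WA.map A.subtype).toAffine.Point) p).ker →+
      (WA.map φ).toAffine.Point where
  toFun P := sp A φ WA hΔ P.1
  map_zero' := rfl
  map_add' P Q := sp_add A φ WA hΔ hφ hp hp2 hpκ P.2 Q.2

theorem spHom_apply (P : (nsmulAddMonoidHom (α := (WA.map A.subtype).toAffine.Point) p).ker) :
    spHom A φ WA hΔ hφ hp hp2 hpκ P = sp A φ WA hΔ P.1 := rfl

theorem spHom_injective : Function.Injective (spHom A φ WA hΔ hφ hp hp2 hpκ) := by
  intro P Q h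
  exact Subtype.ext (sp_inj A φ WA hΔ hφ hp hp2 hpκ P.2 Q.2 h)

end Spec

end Fermat.Agent.S52.H16
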